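import Fermat.Agent.Frob.Reduction
import Fermat.Agent.HasseBound.FiniteField
import Fermat.Agent.LocalTorsion.NumberField

/-!
# Reduction of the torsion at a place of small ramification

At a place `v` above `p` of a number field of degree `d` with `d + 1 < p` the kernel of reduction
of an equation with good reduction has no torsion, so the torsion subgroup is a subgroup of the
points over the residue field.
-/

set_option autoImplicit false
set_option linter.unusedSectionVars false
set_option linter.style.haveILetI false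

noncomputable section

open WeierstrassCurve FA.EC FA.Local IsDedekindDomain NumberField
open FA.Frob (Res redCurve redHom redHom_apply redFun_eq_zero_iff redCurve_isElliptic)
open scoped Classical

namespace FA.OddDegreeTorsion

variable {K : Type*} [Field K] [NumberField K] (v : HeightOneSpectrum (𝓞 K))

/-- The valuation ring at `v`. -/
abbrev ringOf : ValuationSubring K := (v.valuation K).valuationSubring

theorem isEquiv_ringOf : (v.valuation K).IsEquiv (ringOf v).valuation :=
  Valuation.isEquiv_valuation_valuationSubring _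

theorem intCoeff_ringOf {W : WeierstrassCurve K}
    (hI : IntCoeff (v.valuation K) W.toAffine) : IntCoeff (ringOf v).valuation W.toAffine :=
  have e := isEquiv_ringOf v
  ⟨e.le_one_iff_le_one.1 hI.h₁, e.le_one_iff_le_one.1 hI.h₂, e.le_one_iff_le_one.1 hI.h₃,
    e.le_one_iff_le_one.1 hI.h₄, e.le_one_iff_le_one.1 hI.h₆⟩

theorem delta_ringOf {W : WeierstrassCurve K} (hΔ : v.valuation K W.Δ = 1) :
    (ringOf v).valuation W.toAffine.Δ = 1 :=
  (isEquiv_ringOf v).eq_one_iff_eq_one.1 hΔ

/-- The map of the integers to the residue field. -/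
def toRes : 𝓞 K →+* Res (ringOf v) :=
  (IsLocalRing.residue (ringOf v)).comp
    ((algebraMap (𝓞 K) K).codRestrict (ringOf v).toSubring fun r => v.valuation_le_one r)

theorem toRes_eq_zero {r : 𝓞 K} : toRes v r = 0 ↔ r ∈ v.asIdeal := by
  rw [toRes, RingHom.comp_apply, IsLocalRing.residue_eq_zero_iff,
    ValuationSubring.valuation_lt_one_iff, ← (isEquiv_ringOf v).lt_one_iff_lt_one]
  exact v.valuation_lt_one_iff_mem r

theorem toRes_surjective : Function.Surjective (toRes v) := fun z => by
  obtain ⟨⟨x, hx⟩, rfl⟩ := IsLocalRing.residue_surjective z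
  obtain ⟨a, ha⟩ := HeightOneSpectrum.exists_valuation_sub_lt_of_integer v (x := x) hx 1
  refine ⟨a, ?_⟩
  rw [toRes, RingHom.comp_apply, ← sub_eq_zero, ← map_sub, IsLocalRing.residue_eq_zero_iff,
    ValuationSubring.valuation_lt_one_iff, ← (isEquiv_ringOf v).lt_one_iff_lt_one]
  exact ha

theorem finite_res_card : Finite (Res (ringOf v)) ∧
    Nat.card (Res (ringOf v)) = Ideal.absNorm v.asIdeal := by
  have hker : RingHom.ker (toRes v) = v.asIdeal := by
    ext r; rw [RingHom.mem_ker, toRes_eq_zero]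
  let e := (Ideal.quotEquivOfEq hker.symm).trans
    (RingHom.quotientKerEquivOfSurjective (toRes_surjective v))
  have : Finite (𝓞 K ⧸ v.asIdeal) := Ideal.finiteQuotientOfFreeOfNeBot v.asIdeal v.ne_bot
  refine ⟨Finite.of_equiv _ e.toEquiv, ?_⟩
  rw [← Nat.card_congr e.toEquiv, Ideal.absNorm_apply, Submodule.cardQuot_apply]

theorem adicAbv_lt_one_iff {x : K} :
    HeightOneSpectrum.adicAbv K v x < 1 ↔ v.valuation K x < 1 := by
  rw [HeightOneSpectrum.adicAbv_def]
  exact (NNReal.coe_lt_one.trans
    (WithZeroMulInt.toNNReal_lt_one_iff (HeightOneSpectrum.one_lt_absNorm_nnreal v)))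

theorem adicAbv_le_one_iff {x : K} :
    HeightOneSpectrum.adicAbv K v x ≤ 1 ↔ v.valuation K x ≤ 1 := by
  rw [HeightOneSpectrum.adicAbv_def]
  exact (NNReal.coe_le_one.trans
    (WithZeroMulInt.toNNReal_le_one_iff (HeightOneSpectrum.one_lt_absNorm_nnreal v)))

/-- **No torsion in the kernel of reduction when `d + 1 < p`.** -/
theorem eq_zero_of_one_lt_valuation {W : WeierstrassCurve K} [W.IsElliptic]
    (hI : IntCoeff (v.valuation K) W.toAffine) {p : ℕ} (hp : p.Prime)
    (hv : (p : 𝓞 K) ∈ v.asIdeal) (hd : Module.finrank ℚ K + 1 < p) {x y : K}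
    (h : W.toAffine.Nonsingular x y) (hfin : IsOfFinAddOrder (Affine.Point.some x y h)) :
    v.valuation K x ≤ 1 := by
  by_contra hx
  have hd0 : 0 < Module.finrank ℚ K := Module.finrank_pos
  have hdep := LocalTorsion.exists_int_relation (K := K)
  have hchar : CharZero K := inferInstance
  have hx' : 1 < HeightOneSpectrum.adicAbv K v x :=
    not_le.1 fun hle => hx ((adicAbv_le_one_iff v).1 hle)
  have hpv : HeightOneSpectrum.adicAbv K v (p : K) < 1 :=
    (adicAbv_lt_one_iff v).2 (by
      rw [← map_natCast (algebraMap (𝓞 K) K)]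
      exact (v.valuation_lt_one_iff_mem _).2 hv)
  letI := (HeightOneSpectrum.adicAbv K v).toNormedField
  haveI := LocalTorsion.isUltrametric_adicAbv v
  have hI' : IntCoeff (NormedField.valuation (K := K)) W.toAffine :=
    ⟨(adicAbv_le_one_iff v).2 hI.h₁, (adicAbv_le_one_iff v).2 hI.h₂,
      (adicAbv_le_one_iff v).2 hI.h₃, (adicAbv_le_one_iff v).2 hI.h₄,
      (adicAbv_le_one_iff v).2 hI.h₆⟩
  obtain ⟨l, k, hl, hlK, hord, hb⟩ := LocalTorsion.exists_prime_pow_order hI' h hx' hfin
  have : Fact l.Prime := ⟨hl⟩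
  have : Fact p.Prime := ⟨hp⟩
  obtain rfl : l = p := by
    by_contra hne
    exact (LocalTorsion.norm_natCast_of_not_dvd (p := p) hpv fun hdvd =>
      hne ((Nat.prime_dvd_prime_iff_eq hp hl).1 hdvd).symm).not_lt hlK
  obtain ⟨hxy, -⟩ := large_of_one_lt hI' h.1 (x := x) (by exact_mod_cast hx')
  have hy : ‖x‖ < ‖y‖ := by exact_mod_cast hxy
  have hz : ‖x / y‖ < 1 := by
    rw [norm_div, div_lt_one ((norm_nonneg _).trans_lt hy)]; exact hy
  have hz0 : 0 < ‖x / y‖ := by
    rw [norm_div]
    exact div_pos (zero_lt_one.trans hx') ((norm_nonneg _).trans_lt hy)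
  have hn : Module.finrank ℚ K < l ^ k * (l - 1) :=
    (Nat.lt_sub_iff_add_lt.2 hd).trans_le (Nat.le_mul_of_pos_left _ (pow_pos hl.pos k))
  exact absurd hb (not_le.2 ((pow_lt_pow_right_of_lt_one₀ hz0 hz hn).trans_le
    (@LocalTorsion.norm_pow_degree_le K _ _ hchar _ hd0 hdep l _ hpv _ hz)))

/-- **Reduction is injective on torsion.** -/
theorem torsion_card_dvd_reduction {W : WeierstrassCurve K} [W.IsElliptic]
    (hI : IntCoeff (v.valuation K) W.toAffine) (hΔ : v.valuation K W.Δ = 1) {p : ℕ} (hp : p.Prime)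
    (hv : (p : 𝓞 K) ∈ v.asIdeal) (hd : Module.finrank ℚ K + 1 < p) :
    Finite (AddCommGroup.torsion W.toAffine.Point) ∧
      Nat.card (AddCommGroup.torsion W.toAffine.Point) ∣
        Nat.card (redCurve (ringOf v) W.toAffine (intCoeff_ringOf v hI)).toAffine.Point := by
  haveI := redCurve_isElliptic (intCoeff_ringOf v hI) (delta_ringOf v hΔ)
  haveI := (finite_res_card v).1
  have hfin : Finite (redCurve (ringOf v) W.toAffine (intCoeff_ringOf v hI)).toAffine.Point := by
    refine Finite.of_injective (fun P => match P with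
      | .zero => none
      | .some x y _ => some (x, y)) ?_
    rintro (_ | ⟨x, y, h⟩) (_ | ⟨x', y', h'⟩) he <;> simp_all
  let r := (redHom (intCoeff_ringOf v hI) (delta_ringOf v hΔ)).comp
    (AddCommGroup.torsion W.toAffine.Point).subtype
  have inj : Function.Injective r := (injective_iff_map_eq_zero r).2 fun P hP => Subtype.ext <| by
    obtain ⟨P, hPt⟩ := P
    rcases P with _ | ⟨x, y, h⟩
    · rfl
    exfalso
    have h0 : E1 (ringOf v).valuation W.toAffine (Affine.Point.some x y h) :=
      (redFun_eq_zero_iff _).1 hP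
    rw [e1_some, ← (isEquiv_ringOf v).one_lt_iff_one_lt] at h0
    exact absurd (eq_zero_of_one_lt_valuation v hI hp hv hd h hPt) (not_le.2 h0)
  exact ⟨Finite.of_injective r inj, AddSubgroup.card_dvd_of_injective r inj⟩

/-- **The uniform bound.** -/
theorem torsion_card_le {W : WeierstrassCurve K} [W.IsElliptic]
    (hI : IntCoeff (v.valuation K) W.toAffine) (hΔ : v.valuation K W.Δ = 1) {p : ℕ} (hp : p.Prime)
    (hv : (p : 𝓞 K) ∈ v.asIdeal) (hd : Module.finrank ℚ K + 1 < p) :
    (Nat.card (AddCommGroup.torsion W.toAffine.Point) : ℝ) ≤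
      (Real.sqrt (Ideal.absNorm v.asIdeal) + 1) ^ 2 := by
  haveI := redCurve_isElliptic (intCoeff_ringOf v hI) (delta_ringOf v hΔ)
  haveI := (finite_res_card v).1
  haveI := Fintype.ofFinite (Res (ringOf v))
  set V := redCurve (ringOf v) W.toAffine (intCoeff_ringOf v hI)
  obtain ⟨-, hdvd⟩ := torsion_card_dvd_reduction v hI hΔ hp hv hd
  have hb := FA.Summary.hasse_bound_finite V
  rw [← Nat.card_eq_fintype_card, (finite_res_card v).2, abs_sub_le_iff] at hb
  have hpos : 0 < Nat.card V.toAffine.Point := by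
    by_contra h0
    rw [Nat.eq_zero_of_not_pos h0] at hb
    have hq : (2 : ℝ) ≤ (Ideal.absNorm v.asIdeal : ℕ) := by
      exact_mod_cast HeightOneSpectrum.one_lt_absNorm v
    push_cast at hb
    nlinarith [hb.1, Real.sq_sqrt (show (0 : ℝ) ≤ (Ideal.absNorm v.asIdeal : ℕ) by positivity),
      Real.sqrt_nonneg (Ideal.absNorm v.asIdeal : ℕ)]
  refine (Nat.cast_le.2 (Nat.le_of_dvd hpos hdvd)).trans ?_
  nlinarith [hb.2, Real.sq_sqrt (show (0 : ℝ) ≤ (Ideal.absNorm v.asIdeal : ℕ) by positivity)]

end FA.OddDegreeTorsion
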