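import Mathlib.AlgebraicGeometry.EllipticCurve.Affine.Point
import Mathlib.FieldTheory.Finite.Basic
import Mathlib.NumberTheory.LegendreSymbol.QuadraticChar.Basic

/-!
# Supersingular point counts

Over a finite field with `q` elements `y² = x³ + b` has `q + 1` points for `q ≡ 2 (mod 3)` and
`y² = x³ + a x` has `q + 1` points for `q ≡ 3 (mod 4)`.
-/

set_option autoImplicit false
set_option linter.unusedSectionVars false

noncomputable section

open WeierstrassCurve
open scoped Classical

namespace FA.OddDegreeTorsion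

variable {F : Type*} [Field F] [Finite F]

/-- The points are the solutions of the equation and one more. -/
theorem natCard_point (W : WeierstrassCurve F) [W.IsElliptic] :
    Nat.card W.toAffine.Point = Nat.card {s : F × F // W.toAffine.Equation s.1 s.2} + 1 := by
  let f : Option {s : F × F // W.toAffine.Equation s.1 s.2} → W.toAffine.Point
    | none => 0
    | some s => .some s.1.1 s.1.2 (Affine.equation_iff_nonsingular.mp s.2)
  have hf : Function.Bijective f := by
    refine ⟨?_, ?_⟩
    · rintro (_ | ⟨⟨x, y⟩, h⟩) (_ | ⟨⟨x', y'⟩, h'⟩) he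
      · rfl
      · exact absurd he.symm (Affine.Point.some_ne_zero _)
      · exact absurd he (Affine.Point.some_ne_zero _)
      · simp only [f, Affine.Point.some.injEq] at he
        obtain ⟨rfl, rfl⟩ := he
        rfl
    · rintro (_ | ⟨x, y, h⟩)
      · exact ⟨none, rfl⟩
      · exact ⟨some ⟨(x, y), h.1⟩, rfl⟩
  rw [← Nat.card_eq_of_bijective f hf, Finite.card_option]

theorem cube_bijective (hq : Nat.card F % 3 = 2) : Function.Bijective fun x : F => x ^ 3 := by
  have := Fintype.ofFinite F
  refine Finite.injective_iff_bijective.1 fun x y hxy => ?_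
  have hcop : Nat.Coprime 3 (Nat.card Fˣ) := by
    rw [Nat.card_units, Nat.prime_three.coprime_iff_not_dvd]
    omega
  rcases eq_or_ne x 0 with rfl | hx
  · simp only [zero_pow three_ne_zero] at hxy
    exact (eq_zero_of_pow_eq_zero hxy.symm).symm
  rcases eq_or_ne y 0 with rfl | hy
  · simp only [zero_pow three_ne_zero] at hxy
    exact absurd (eq_zero_of_pow_eq_zero hxy) hx
  have h := (powCoprime hcop.symm).injective (a₁ := Units.mk0 x hx) (a₂ := Units.mk0 y hy)
    (Units.ext (by simpa [powCoprime] using hxy))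
  exact congrArg Units.val h

/-- **`y² = x³ + b` for `q ≡ 2 (mod 3)`.** -/
theorem natCard_mordell {W : WeierstrassCurve F} [W.IsElliptic] (h1 : W.a₁ = 0) (h2 : W.a₂ = 0)
    (h3 : W.a₃ = 0) (h4 : W.a₄ = 0) (hq : Nat.card F % 3 = 2) :
    Nat.card W.toAffine.Point = Nat.card F + 1 := by
  set e := Equiv.ofBijective _ (cube_bijective hq)
  have heq : ∀ s : F × F, W.toAffine.Equation s.1 s.2 ↔ e.symm (s.2 ^ 2 - W.a₆) = s.1 := fun s => by
    rw [Affine.equation_iff, h1, h2, h3, h4, Equiv.symm_apply_eq,
      show e s.1 = s.1 ^ 3 from rfl, sub_eq_iff_eq_add]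
    simp
  rw [natCard_point, Nat.card_congr (Equiv.subtypeEquivRight heq)]
  congr 1
  exact Nat.card_congr
    { toFun := fun s => s.1.2
      invFun := fun y => ⟨(e.symm (y ^ 2 - W.a₆), y), rfl⟩
      left_inv := fun s => Subtype.ext (Prod.ext s.2 rfl)
      right_inv := fun _ => rfl }

/-- **`y² = x³ + a x` for `q ≡ 3 (mod 4)`.** -/
theorem natCard_quartic {W : WeierstrassCurve F} [W.IsElliptic] (h1 : W.a₁ = 0) (h2 : W.a₂ = 0)
    (h3 : W.a₃ = 0) (h6 : W.a₆ = 0) (hq : Nat.card F % 4 = 3) :
    Nat.card W.toAffine.Point = Nat.card F + 1 := by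
  have := Fintype.ofFinite F
  rw [Nat.card_eq_fintype_card (α := F)] at hq
  have hF : ringChar F ≠ 2 := fun h => by
    have := FiniteField.even_card_of_char_two h
    omega
  have hneg : ¬ IsSquare (-1 : F) := by rw [FiniteField.isSquare_neg_one_iff]; omega
  set g : F → F := fun x => x ^ 3 + W.a₄ * x
  have hg : ∀ x, g (-x) = -g x := fun x => by simp only [g]; ring
  have heq : ∀ s : F × F, W.toAffine.Equation s.1 s.2 ↔ s.2 ^ 2 = g s.1 := fun s => by
    rw [Affine.equation_iff, h1, h2, h3, h6]
    simp [g]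
  rw [natCard_point, Nat.card_congr (Equiv.subtypeEquivRight heq)]
  congr 1
  have hsum : ∀ x, (Nat.card {y : F // y ^ 2 = g x} : ℤ) = quadraticChar F (g x) + 1 := fun x => by
    rw [← quadraticChar_card_sqrts hF (g x), Nat.card_eq_fintype_card, Set.toFinset_card]
    rfl
  have h0 : ∑ x, quadraticChar F (g x) = 0 := by
    have h := Equiv.sum_comp (Equiv.neg F) fun x => quadraticChar F (g x)
    simp only [Equiv.neg_apply, hg] at h
    have hn : ∀ x, quadraticChar F (-g x) = -quadraticChar F (g x) := fun x => by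
      rw [neg_eq_neg_one_mul, map_mul, quadraticChar_neg_one_iff_not_isSquare.2 hneg, neg_one_mul]
    simp only [hn, Finset.sum_neg_distrib] at h
    omega
  have : (Nat.card {s : F × F // s.2 ^ 2 = g s.1} : ℤ) = Nat.card F := by
    rw [Nat.card_congr (Equiv.subtypeProdEquivSigmaSubtype fun x y => y ^ 2 = g x), Nat.card_sigma]
    push_cast
    rw [Finset.sum_congr rfl fun x _ => hsum x, Finset.sum_add_distrib, h0, zero_add,
      Finset.sum_const, Finset.card_univ, Nat.card_eq_fintype_card, nsmul_eq_mul, mul_one]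
  exact_mod_cast this

end FA.OddDegreeTorsion
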