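import Fermat.Agent.OddDegreeTorsion.Place
import Fermat.Agent.OddDegreeTorsion.PointCount
import Fermat.Agent.OddDegreeTorsion.Reduction
import Mathlib.NumberTheory.LSeries.PrimesInAP
import Mathlib.NumberTheory.Multiplicity
import Mathlib.Data.Nat.Log

/-!
# The torsion of `y² = x³ + k` and `y² = x³ + D x` in odd degree

Over a number field of odd degree `d` the torsion subgroup of `y² = x³ + k` has order dividing
`2 * 3 ^ (1 + log₃ d)` and that of `y² = x³ + D x` order dividing `4`.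
-/

set_option autoImplicit false
set_option linter.unusedSectionVars false
set_option linter.style.haveILetI false

noncomputable section

open WeierstrassCurve FA.EC FA.Local IsDedekindDomain NumberField
open FA.Frob (Res redCurve redCurve_isElliptic)
open scoped Classical

namespace FA.OddDegreeTorsion

universe u

variable {K : Type u} [Field K] [NumberField K]

theorem exists_bound_le (k : K) : ∃ N : ℕ, ∀ p : ℕ, p.Prime → N < p →
    ∀ v : HeightOneSpectrum (𝓞 K), (p : 𝓞 K) ∈ v.asIdeal → v.valuation K k ≤ 1 := by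
  rcases eq_or_ne k 0 with rfl | hk
  · exact ⟨0, fun _ _ _ v _ => by rw [map_zero]; exact zero_le_one⟩
  · obtain ⟨N, hN⟩ := exists_bound_valuation k hk
    exact ⟨N, fun p hp h v hv => (hN p hp h v hv).le⟩

/-- Beyond some bound every place is good. -/
theorem exists_good_bound (W : WeierstrassCurve K) [W.IsElliptic] :
    ∃ N : ℕ, ∀ p : ℕ, p.Prime → N < p → ∀ v : HeightOneSpectrum (𝓞 K), (p : 𝓞 K) ∈ v.asIdeal →
      IntCoeff (v.valuation K) W.toAffine ∧ v.valuation K W.Δ = 1 := by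
  obtain ⟨N₁, h₁⟩ := exists_bound_le W.a₁
  obtain ⟨N₂, h₂⟩ := exists_bound_le W.a₂
  obtain ⟨N₃, h₃⟩ := exists_bound_le W.a₃
  obtain ⟨N₄, h₄⟩ := exists_bound_le W.a₄
  obtain ⟨N₆, h₆⟩ := exists_bound_le W.a₆
  obtain ⟨N₀, h₀⟩ := exists_bound_valuation W.Δ W.isUnit_Δ.ne_zero
  exact ⟨N₁ + N₂ + N₃ + N₄ + N₆ + N₀, fun p hp hN v hv =>
    ⟨⟨h₁ p hp (by omega) v hv, h₂ p hp (by omega) v hv, h₃ p hp (by omega) v hv,
      h₄ p hp (by omega) v hv, h₆ p hp (by omega) v hv⟩, h₀ p hp (by omega) v hv⟩⟩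

theorem pow_modEq_of_odd {n p f : ℕ} (h : (p : ZMod n) = -1) (hf : Odd f) :
    ((p ^ f : ℕ) : ZMod n) = -1 := by
  rw [Nat.cast_pow, h, hf.neg_one_pow]

variable {W : WeierstrassCurve K} [W.IsElliptic] (hd : Odd (Module.finrank ℚ K))
include hd

/-- **The torsion divides `p ^ f + 1`** at the large primes of supersingular type `p ≡ -1 (n)`. -/
theorem exists_torsion_dvd {n : ℕ} [NeZero n]
    (hcount : ∀ (F : Type u) [Field F] [Finite F] (V : WeierstrassCurve F) [V.IsElliptic]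
      (φ : ValuationSubring K) (res : φ →+* F) (hI : IntCoeff φ.valuation W.toAffine),
      V = (FA.Frob.intModel φ W.toAffine hI).map res → (Nat.card F : ZMod n) = -1 →
        Nat.card V.toAffine.Point = Nat.card F + 1) :
    ∃ N : ℕ, ∀ p : ℕ, p.Prime → N < p → (p : ZMod n) = -1 →
      ∃ f, Odd f ∧ f ≤ Module.finrank ℚ K ∧
        Finite (AddCommGroup.torsion W.toAffine.Point) ∧
        Nat.card (AddCommGroup.torsion W.toAffine.Point) ∣ p ^ f + 1 := by
  obtain ⟨N, hN⟩ := exists_good_bound W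
  refine ⟨N + (Module.finrank ℚ K + 1), fun p hp hlt hmod => ?_⟩
  obtain ⟨v, f, hv, hf, hfd, hnorm⟩ := exists_place_odd hd hp
  obtain ⟨hI, hΔ⟩ := hN p hp (by omega) v hv
  obtain ⟨hfin, hdvd⟩ := torsion_card_dvd_reduction v hI hΔ hp hv (by omega)
  haveI := redCurve_isElliptic (intCoeff_ringOf v hI) (delta_ringOf v hΔ)
  obtain ⟨hres, hq⟩ := finite_res_card v
  haveI := hres
  rw [hnorm] at hq
  refine ⟨f, hf, hfd, hfin, ?_⟩
  rwa [hcount (Res (ringOf v)) (redCurve (ringOf v) W.toAffine (intCoeff_ringOf v hI))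
    (ringOf v) (IsLocalRing.residue _) (intCoeff_ringOf v hI) rfl
    (by rw [hq]; exact pow_modEq_of_odd hmod hf), hq] at hdvd

end FA.OddDegreeTorsion

namespace FA.OddDegreeTorsion

variable {K : Type*} [Field K] [NumberField K]

theorem exists_prime_two_congr {a m b l : ℕ} (hab : m.Coprime l) (ha : a.Coprime m)
    (hb : b.Coprime l) (hm : m ≠ 0) (hl : l ≠ 0) (N : ℕ) :
    ∃ p > N, p.Prime ∧ p ≡ a [MOD m] ∧ p ≡ b [MOD l] := by
  obtain ⟨c, hc1, hc2⟩ := Nat.chineseRemainder hab a b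
  have hcop : c.Coprime (m * l) :=
    Nat.Coprime.mul_right (hc1.gcd_eq.trans ha) (hc2.gcd_eq.trans hb)
  obtain ⟨p, hN, hp, hpc⟩ := Nat.forall_exists_prime_gt_and_modEq N (mul_ne_zero hm hl) hcop
  exact ⟨p, hN, hp, (hpc.of_mul_right l).trans hc1, (hpc.of_mul_left m).trans hc2⟩

theorem natCast_eq_neg_one {p m : ℕ} (h : p ≡ m [MOD m + 1]) : (p : ZMod (m + 1)) = -1 := by
  rw [(ZMod.natCast_eq_natCast_iff _ _ _).2 h, eq_neg_iff_add_eq_zero, ← Nat.cast_add_one,
    ZMod.natCast_self]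

/-- `p ^ f + 1` is `2` modulo `m` when `p` is `1`. -/
theorem pow_add_one_mod {p f m : ℕ} (h : p ≡ 1 [MOD m]) : p ^ f + 1 ≡ 2 [MOD m] := by
  simpa using (h.pow f).add_right 1

variable (hd : Odd (Module.finrank ℚ K))
include hd

/-- **`y² = x³ + k` in odd degree.** -/
theorem mordell_torsion_dvd {W : WeierstrassCurve K} [W.IsElliptic] (h1 : W.a₁ = 0)
    (h2 : W.a₂ = 0) (h3 : W.a₃ = 0) (h4 : W.a₄ = 0) :
    Finite (AddCommGroup.torsion W.toAffine.Point) ∧
      Nat.card (AddCommGroup.torsion W.toAffine.Point) ∣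
        2 * 3 ^ (1 + Nat.log 3 (Module.finrank ℚ K)) := by
  obtain ⟨N, hN⟩ := exists_torsion_dvd hd (W := W) (n := 3) fun F _ _ V _ φ res hI hV hq =>
    natCard_mordell (by rw [hV]; exact (congrArg res (Subtype.ext h1)).trans (map_zero res))
      (by rw [hV]; exact (congrArg res (Subtype.ext h2)).trans (map_zero res))
      (by rw [hV]; exact (congrArg res (Subtype.ext h3)).trans (map_zero res))
      (by rw [hV]; exact (congrArg res (Subtype.ext h4)).trans (map_zero res))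
      (by
        rw [eq_neg_iff_add_eq_zero, ← Nat.cast_add_one, ZMod.natCast_eq_zero_iff] at hq
        omega)
  have get : ∀ p : ℕ, p.Prime → N < p → p ≡ 2 [MOD 3] →
      ∃ f, Odd f ∧ f ≤ Module.finrank ℚ K ∧
        Finite (AddCommGroup.torsion W.toAffine.Point) ∧
        Nat.card (AddCommGroup.torsion W.toAffine.Point) ∣ p ^ f + 1 :=
    fun p hp hlt h => hN p hp hlt (natCast_eq_neg_one (m := 2) h)
  obtain ⟨p₀, hp₀N, hp₀, hp₀3, hp₀4⟩ :=
    exists_prime_two_congr (a := 2) (m := 9) (b := 1) (l := 4) (by norm_num) (by norm_num)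
      (by norm_num) (by norm_num) (by norm_num) (N + 3)
  obtain ⟨f₀, hf₀, hfd₀, hfin, hdvd₀⟩ := get p₀ hp₀ (by omega) (hp₀3.of_mul_left 3)
  refine ⟨hfin, ?_⟩
  set T := Nat.card (AddCommGroup.torsion W.toAffine.Point)
  refine (Nat.dvd_iff_prime_pow_dvd_dvd _ _).2 fun l e hl hle => ?_
  rcases Nat.eq_zero_or_pos e with rfl | he
  · simp
  rcases eq_or_ne l 2 with rfl | hl2
  · rcases Nat.lt_or_ge e 2 with he2 | he2
    · rw [show e = 1 by omega, pow_one]; exact dvd_mul_right 2 _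
    · exfalso
      have h4dvd : 4 ∣ p₀ ^ f₀ + 1 := ((pow_dvd_pow 2 he2).trans hle).trans hdvd₀
      have := pow_add_one_mod (f := f₀) hp₀4
      rw [Nat.ModEq, Nat.mod_eq_zero_of_dvd h4dvd] at this
      omega
  rcases eq_or_ne l 3 with rfl | hl3
  · refine (pow_dvd_pow 3 ?_).trans (dvd_mul_left _ _)
    have h3 : Fact (Nat.Prime 3) := ⟨Nat.prime_three⟩
    have h9 : p₀ % 9 = 2 := hp₀3
    have hv : padicValNat 3 (p₀ ^ f₀ + 1 ^ f₀) = padicValNat 3 (p₀ + 1) + padicValNat 3 f₀ :=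
      padicValNat.pow_add_pow (by decide) (by omega) (by omega) hf₀
    have hp1 : padicValNat 3 (p₀ + 1) = 1 := by
      have hne : ¬ 3 ^ 2 ∣ p₀ + 1 := by omega
      have h1' : 1 ≤ padicValNat 3 (p₀ + 1) := one_le_padicValNat_of_dvd (by omega) (by omega)
      rw [padicValNat_dvd_iff_le (by omega)] at hne
      omega
    rw [one_pow, hp1] at hv
    have hle' := (padicValNat_dvd_iff_le (by omega)).1 (hle.trans hdvd₀)
    rw [hv] at hle'
    exact hle'.trans (Nat.add_le_add_left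
      ((padicValNat_le_nat_log f₀).trans (Nat.log_mono_right hfd₀)) 1)
  · exfalso
    obtain ⟨p, hpN, hp, hp3, hpl⟩ :=
      exists_prime_two_congr (a := 2) (m := 3) (b := 1) (l := l)
        ((Nat.coprime_primes Nat.prime_three hl).2 (Ne.symm hl3)) (by norm_num)
        (Nat.coprime_one_left l) (by norm_num) hl.ne_zero N
    obtain ⟨f, -, -, -, hdvd⟩ := get p hp hpN hp3
    have hld : l ∣ p ^ f + 1 := ((dvd_pow_self l he.ne').trans hle).trans hdvd
    have h2l : l ∣ 2 := (pow_add_one_mod (f := f) hpl).dvd_iff dvd_rfl |>.1 hld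
    exact hl2 ((Nat.prime_dvd_prime_iff_eq hl Nat.prime_two).1 h2l)

/-- **`y² = x³ + D x` in odd degree.** -/
theorem quartic_torsion_dvd {W : WeierstrassCurve K} [W.IsElliptic] (h1 : W.a₁ = 0)
    (h2 : W.a₂ = 0) (h3 : W.a₃ = 0) (h6 : W.a₆ = 0) :
    Finite (AddCommGroup.torsion W.toAffine.Point) ∧
      Nat.card (AddCommGroup.torsion W.toAffine.Point) ∣ 4 := by
  obtain ⟨N, hN⟩ := exists_torsion_dvd hd (W := W) (n := 4) fun F _ _ V _ φ res hI hV hq =>
    natCard_quartic (by rw [hV]; exact (congrArg res (Subtype.ext h1)).trans (map_zero res))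
      (by rw [hV]; exact (congrArg res (Subtype.ext h2)).trans (map_zero res))
      (by rw [hV]; exact (congrArg res (Subtype.ext h3)).trans (map_zero res))
      (by rw [hV]; exact (congrArg res (Subtype.ext h6)).trans (map_zero res))
      (by
        rw [eq_neg_iff_add_eq_zero, ← Nat.cast_add_one, ZMod.natCast_eq_zero_iff] at hq
        omega)
  have get : ∀ p : ℕ, p.Prime → N < p → p ≡ 3 [MOD 4] →
      ∃ f, Odd f ∧ f ≤ Module.finrank ℚ K ∧
        Finite (AddCommGroup.torsion W.toAffine.Point) ∧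
        Nat.card (AddCommGroup.torsion W.toAffine.Point) ∣ p ^ f + 1 :=
    fun p hp hlt h => hN p hp hlt (natCast_eq_neg_one (m := 3) h)
  obtain ⟨p₀, hp₀N, hp₀, hp₀8⟩ :=
    Nat.forall_exists_prime_gt_and_modEq N (q := 8) (a := 3) (by norm_num) (by norm_num)
  obtain ⟨f₀, hf₀, -, hfin, hdvd₀⟩ := get p₀ hp₀ hp₀N (hp₀8.of_mul_right 2)
  refine ⟨hfin, ?_⟩
  refine (Nat.dvd_iff_prime_pow_dvd_dvd _ _).2 fun l e hl hle => ?_
  rcases Nat.eq_zero_or_pos e with rfl | he
  · simp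
  rcases eq_or_ne l 2 with rfl | hl2
  · rcases Nat.lt_or_ge e 3 with he2 | he2
    · exact (pow_dvd_pow 2 (show e ≤ 2 by omega)).trans dvd_rfl
    · exfalso
      have h8 : 8 ∣ p₀ ^ f₀ + 1 := ((pow_dvd_pow 2 he2).trans hle).trans hdvd₀
      obtain ⟨j, rfl⟩ := hf₀
      have h1' : p₀ ^ (2 * j + 1) ≡ 3 ^ (2 * j + 1) [MOD 8] := hp₀8.pow _
      have h3' : 3 ^ (2 * j + 1) % 8 = 3 := by
        rw [pow_succ, pow_mul, Nat.mul_mod, Nat.pow_mod]
        norm_num
      rw [Nat.ModEq, h3'] at h1'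
      omega
  · exfalso
    obtain ⟨p, hpN, hp, hp4, hpl⟩ :=
      exists_prime_two_congr (a := 3) (m := 4) (b := 1) (l := l)
        ((Nat.coprime_primes Nat.prime_two hl).2 (Ne.symm hl2) |>.pow_left 2) (by norm_num)
        (Nat.coprime_one_left l) (by norm_num) hl.ne_zero N
    obtain ⟨f, -, -, -, hdvd⟩ := get p hp hpN hp4
    have hld : l ∣ p ^ f + 1 := ((dvd_pow_self l he.ne').trans hle).trans hdvd
    have h2l : l ∣ 2 := (pow_add_one_mod (f := f) hpl).dvd_iff dvd_rfl |>.1 hld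
    exact hl2 ((Nat.prime_dvd_prime_iff_eq hl Nat.prime_two).1 h2l)

end FA.OddDegreeTorsion
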