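import Mathlib.NumberTheory.NumberField.Basic
import Mathlib.RingTheory.Ideal.Norm.AbsNorm
import Mathlib.RingTheory.DedekindDomain.AdicValuation

/-!
# A place of odd residue degree

In a number field of odd degree every prime has a place above it of odd residue degree.
-/

set_option autoImplicit false
set_option linter.unusedSectionVars false

noncomputable section

open IsDedekindDomain NumberField

namespace FA.OddDegreeTorsion

variable {K : Type*} [Field K] [NumberField K] {p : ℕ}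

/-- An ideal of norm an odd power of `p` has a prime factor of norm an odd power of `p`. -/
theorem exists_prime_odd (hp : p.Prime) (I : Ideal (𝓞 K)) :
    ∀ m, Odd m → Ideal.absNorm I = p ^ m →
      ∃ P : Ideal (𝓞 K), Prime P ∧ ∃ f, Odd f ∧ f ≤ m ∧ Ideal.absNorm P = p ^ f := by
  induction I using UniqueFactorizationMonoid.induction_on_prime with
  | h₁ =>
    intro m _ h
    rw [Ideal.zero_eq_bot, Ideal.absNorm_bot] at h
    exact absurd h.symm (pow_ne_zero m hp.ne_zero)
  | h₂ I hI =>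
    intro m hm h
    rw [Ideal.isUnit_iff.1 hI, Ideal.absNorm_top] at h
    rcases Nat.pow_eq_one.1 h.symm with h | h
    · exact absurd h hp.ne_one
    · exact absurd (h ▸ hm) Nat.not_odd_zero
  | h₃ J P hJ hP ih =>
    intro m hm h
    rw [map_mul] at h
    obtain ⟨f, hf, hPf⟩ := (Nat.dvd_prime_pow hp).1 (h ▸ dvd_mul_right _ _)
    rcases Nat.even_or_odd f with hev | hodd
    · rw [hPf, show m = f + (m - f) by omega, pow_add] at h
      obtain ⟨Q, hQ, g, hg, hgle, hQg⟩ := ih (m - f) (Nat.Odd.sub_even hf hm hev)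
        (mul_left_cancel₀ (pow_ne_zero f hp.ne_zero) h)
      exact ⟨Q, hQ, g, hg, hgle.trans (Nat.sub_le _ _), hQg⟩
    · exact ⟨P, hP, f, hodd, hf, hPf⟩

/-- **A place of odd residue degree.** -/
theorem exists_place_odd (hd : Odd (Module.finrank ℚ K)) (hp : p.Prime) :
    ∃ (v : HeightOneSpectrum (𝓞 K)) (f : ℕ), (p : 𝓞 K) ∈ v.asIdeal ∧ Odd f ∧
      f ≤ Module.finrank ℚ K ∧ Ideal.absNorm v.asIdeal = p ^ f := by
  obtain ⟨P, hP, f, hf, hle, hPf⟩ := exists_prime_odd hp (Ideal.span {(p : 𝓞 K)})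
    (Module.finrank ℚ K) hd (by rw [Ideal.absNorm_span_natCast, RingOfIntegers.rank])
  refine ⟨⟨P, Ideal.isPrime_of_prime hP, hP.ne_zero⟩, f, ?_, hf, hle, hPf⟩
  have hprime := Ideal.isPrime_of_prime hP
  have := Ideal.absNorm_mem P
  rw [hPf, Nat.cast_pow] at this
  exact hprime.mem_of_pow_mem _ this

/-- A nonzero element is a unit at all places above a large prime. -/
theorem exists_bound_valuation (k : K) (hk : k ≠ 0) :
    ∃ N : ℕ, ∀ p : ℕ, p.Prime → N < p → ∀ v : HeightOneSpectrum (𝓞 K), (p : 𝓞 K) ∈ v.asIdeal →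
      v.valuation K k = 1 := by
  obtain ⟨a, b, hb, rfl⟩ := IsFractionRing.div_surjective (A := 𝓞 K) k
  have ha : a ≠ 0 := fun e => hk (by rw [e, map_zero, zero_div])
  have hb0 : b ≠ 0 := nonZeroDivisors.ne_zero hb
  refine ⟨max (Ideal.absNorm (Ideal.span {a})) (Ideal.absNorm (Ideal.span {b})),
    fun p hp hN v hv => ?_⟩
  have key : ∀ c : 𝓞 K, c ≠ 0 → Ideal.absNorm (Ideal.span {c}) < p → c ∉ v.asIdeal := fun c hc hlt
      hmem => by
    have h1 : Ideal.absNorm v.asIdeal ∣ Ideal.absNorm (Ideal.span {c}) :=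
      Ideal.absNorm_dvd_absNorm_of_le ((Ideal.span_singleton_le_iff_mem _).2 hmem)
    have h2 : Ideal.absNorm v.asIdeal ∣ p ^ Module.finrank ℤ (𝓞 K) := by
      rw [← Ideal.absNorm_span_natCast]
      exact Ideal.absNorm_dvd_absNorm_of_le ((Ideal.span_singleton_le_iff_mem _).2 hv)
    obtain ⟨f, -, hf⟩ := (Nat.dvd_prime_pow hp).1 h2
    have hf0 : f ≠ 0 := fun e => by
      rw [e, pow_zero, Ideal.absNorm_eq_one_iff] at hf
      exact v.isPrime.ne_top hf
    have h0 : 0 < Ideal.absNorm (Ideal.span {c}) := Nat.pos_of_ne_zero fun e => hc <| by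
      rwa [Ideal.absNorm_eq_zero_iff, Ideal.span_singleton_eq_bot] at e
    exact absurd ((Nat.le_self_pow hf0 p).trans (hf ▸ Nat.le_of_dvd h0 h1)) (not_le.2 hlt)
  rw [map_div₀, (v.valuation_eq_one_iff_notMem).2 (key a ha ((le_max_left _ _).trans_lt hN)),
    (v.valuation_eq_one_iff_notMem).2 (key b hb0 ((le_max_right _ _).trans_lt hN)), div_one]

end FA.OddDegreeTorsion
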